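import Fermat.Agent.ExtVanish.InertiaLift
import Mathlib.NumberTheory.NumberField.Discriminant.Different
import Mathlib.NumberTheory.NumberField.Discriminant.Basic

/-!
# Hermite and Minkowski for Galois extensions

A Galois extension of `ℚ` of degree `n` which is unramified outside a finite set `S` has different
dividing `n * ∏ p ∈ S, p`: the different is stable under the Galois group and the trace of
`p ^ (-(v + 1))`, with `v` the exponent of `p` in `n`, is not an integer. Hence its discriminant is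
bounded and there are only finitely many such extensions in `ℚ̄`.
-/

set_option autoImplicit false
set_option linter.unusedSectionVars false
set_option linter.style.haveILetI false

noncomputable section

open NumberField FA.Deform FA.Local
open scoped Pointwise nonZeroDivisors

local notation "Qb" => AlgebraicClosure ℚ
local notation "GQ" => AlgebraicClosure ℚ ≃ₐ[ℚ] AlgebraicClosure ℚ

namespace FA.Faltings

section Different

variable (K : Type*) [Field K] [NumberField K] [IsGalois ℚ K]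

/-- The different is stable under the Galois group. -/
theorem smul_differentIdeal (τ : K ≃ₐ[ℚ] K) :
    τ • differentIdeal ℤ (𝓞 K) = differentIdeal ℤ (𝓞 K) := by
  have key : ∀ σ : K ≃ₐ[ℚ] K, differentIdeal ℤ (𝓞 K) ≤ σ • differentIdeal ℤ (𝓞 K) := by
    intro σ
    set D := differentIdeal ℤ (𝓞 K)
    have hD : D ≠ ⊥ := differentIdeal_ne_bot
    have hσD : σ • D ≠ ⊥ := fun h => hD (by
      rw [eq_bot_iff]
      intro x hx
      have := Ideal.smul_mem_pointwise_smul σ x D hx
      rw [h, Ideal.mem_bot, smul_eq_zero_iff_eq] at this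
      exact this)
    rw [differentialIdeal_le_iff (K := ℚ) (L := K) hσD, Submodule.map_le_iff_le_comap]
    intro x hx
    rw [Submodule.restrictScalars_mem, FractionalIdeal.mem_coe,
      FractionalIdeal.mem_inv_iff (by simpa using hσD)] at hx
    have hy : σ⁻¹ x ∈ ((D : FractionalIdeal (𝓞 K)⁰ K)⁻¹) := by
      rw [FractionalIdeal.mem_inv_iff (by simpa using hD)]
      intro y hy
      obtain ⟨d, hd, rfl⟩ := (FractionalIdeal.mem_coeIdeal _).mp hy
      obtain ⟨z, hz⟩ := (FractionalIdeal.mem_one_iff _).mp (hx (σ • d : 𝓞 K)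
        ((FractionalIdeal.mem_coeIdeal _).mpr ⟨σ • d, Ideal.smul_mem_pointwise_smul σ d D hd,
          rfl⟩))
      refine (FractionalIdeal.mem_one_iff _).mpr ⟨σ⁻¹ • z, ?_⟩
      rw [show (algebraMap (𝓞 K) K (σ⁻¹ • z)) = σ⁻¹ (algebraMap (𝓞 K) K z) from
        algebraMap.coe_smul' σ⁻¹ z K, hz, map_mul]
      congr 1
      rw [show ((σ • d : 𝓞 K) : K) = σ (d : K) from algebraMap.coe_smul' σ d K,
        AlgEquiv.aut_inv, AlgEquiv.symm_apply_apply]
    have h2 : differentIdeal ℤ (𝓞 K) ≤ D := le_rfl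
    rw [differentialIdeal_le_iff (K := ℚ) (L := K) hD, Submodule.map_le_iff_le_comap] at h2
    have h3 := h2 (Submodule.restrictScalars_mem ℤ _ _ |>.mpr hy)
    rw [Submodule.mem_comap, LinearMap.coe_restrictScalars] at h3 ⊢
    rwa [Algebra.trace_eq_of_algEquiv] at h3
  refine le_antisymm ?_ (key τ)
  rw [Ideal.pointwise_smul_subset_iff]
  exact key τ⁻¹

variable {K}

/-- The primes over a prime number are conjugate, so they divide the different equally often. -/
theorem pow_dvd_of_pow_dvd {q : ℕ} (hq : q.Prime) {P P' : Ideal (𝓞 K)} [P.IsMaximal]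
    [P'.IsMaximal] (hP : (q : 𝓞 K) ∈ P) (hP' : (q : 𝓞 K) ∈ P') {k : ℕ} {I : Ideal (𝓞 K)}
    (hI : ∀ τ : K ≃ₐ[ℚ] K, τ • I = I) (h : P ^ k ∣ I) : P' ^ k ∣ I := by
  have := IsGaloisGroup.of_isFractionRing (K ≃ₐ[ℚ] K) ℤ (𝓞 K) ℚ K
  have : Algebra.IsInvariant ℤ (𝓞 K) (K ≃ₐ[ℚ] K) := IsGaloisGroup.isInvariant
  have hunder : ∀ Q : Ideal (𝓞 K), Q.IsMaximal → (q : 𝓞 K) ∈ Q →
      Q.under ℤ = Ideal.span {(q : ℤ)} := by
    intro Q hQ hqQ
    refine ((PrincipalIdealRing.isMaximal_of_irreducible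
      (Nat.prime_iff_prime_int.mp hq).irreducible).eq_of_le
        (Ideal.comap_ne_top _ hQ.ne_top) ?_).symm
    rw [Ideal.span_le, Set.singleton_subset_iff, SetLike.mem_coe, Ideal.mem_comap]
    simpa using hqQ
  obtain ⟨τ, hτ⟩ := Algebra.IsInvariant.exists_smul_of_under_eq ℤ (𝓞 K) (K ≃ₐ[ℚ] K) P P'
    ((hunder P inferInstance hP).trans (hunder P' inferInstance hP').symm)
  rw [hτ, Ideal.dvd_iff_le, ← hI τ, ← smul_pow', Ideal.pointwise_smul_le_pointwise_smul_iff]
  exact Ideal.dvd_iff_le.mp h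

/-- **A bound for the different.** -/
theorem natCast_mem_differentIdeal {S : Finset ℕ} (hS : ∀ p ∈ S, p.Prime)
    (hun : ∀ (q : ℕ) (P : Ideal (𝓞 K)) [P.IsMaximal], q.Prime → q ∉ S → (q : 𝓞 K) ∈ P →
      Algebra.IsUnramifiedAt ℤ P) :
    ((Module.finrank ℚ K * ∏ p ∈ S, p : ℕ) : 𝓞 K) ∈ differentIdeal ℤ (𝓞 K) := by
  classical
  set n := Module.finrank ℚ K
  set m := n * ∏ p ∈ S, p
  set D := differentIdeal ℤ (𝓞 K)
  have hn0 : n ≠ 0 := Module.finrank_pos.ne'
  have hm0 : (m : 𝓞 K) ≠ 0 := by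
    rw [Nat.cast_ne_zero]
    exact mul_ne_zero hn0 (Finset.prod_ne_zero_iff.mpr fun p hp => (hS p hp).ne_zero)
  have hspan : Ideal.span {(m : 𝓞 K)} ≠ ⊥ := by rwa [Ne, Ideal.span_singleton_eq_bot]
  rw [← Ideal.span_singleton_le_iff_mem, ← Ideal.dvd_iff_le]
  refine (UniqueFactorizationMonoid.dvd_iff_normalizedFactors_le_normalizedFactors
    (differentIdeal_ne_bot (A := ℤ) (B := 𝓞 K)) hspan).mpr (Multiset.le_iff_count.mpr fun P => ?_)
  by_contra hlt
  push Not at hlt
  have hPmem : P ∈ UniqueFactorizationMonoid.normalizedFactors D :=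
    Multiset.count_pos.mp (lt_of_le_of_lt (Nat.zero_le _) hlt)
  have hPp : Prime P := UniqueFactorizationMonoid.prime_of_normalized_factor P hPmem
  have hPmax : P.IsMaximal := (Ideal.isPrime_of_prime hPp).isMaximal hPp.ne_zero
  have hPD : P ∣ D := UniqueFactorizationMonoid.dvd_of_mem_normalizedFactors hPmem
  set k := (UniqueFactorizationMonoid.normalizedFactors D).count P
  have hcount : ∀ {I Q : Ideal (𝓞 K)}, Prime Q → I ≠ ⊥ → ∀ j : ℕ,
      (j ≤ (UniqueFactorizationMonoid.normalizedFactors I).count Q ↔ Q ^ j ∣ I) := by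
    intro I Q hQ hI j
    rw [UniqueFactorizationMonoid.dvd_iff_normalizedFactors_le_normalizedFactors
        (pow_ne_zero j hQ.ne_zero) hI, UniqueFactorizationMonoid.normalizedFactors_pow,
      UniqueFactorizationMonoid.normalizedFactors_irreducible hQ.irreducible, normalize_eq,
      Multiset.nsmul_singleton, ← Multiset.le_count_iff_replicate_le]
  -- the prime number below `P` is in `S`
  obtain ⟨q, hq, hqP⟩ : ∃ q : ℕ, q.Prime ∧ (q : 𝓞 K) ∈ P := by
    let := Ideal.Quotient.field P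
    have : Finite (𝓞 K ⧸ P) := Ideal.finiteQuotientOfFreeOfNeBot P hPp.ne_zero
    refine ⟨ringChar (𝓞 K ⧸ P), CharP.char_is_prime (𝓞 K ⧸ P) _, ?_⟩
    rw [← Ideal.Quotient.eq_zero_iff_mem, map_natCast]
    exact CharP.cast_eq_zero _ _
  have hqS : q ∈ S := by
    by_contra hqS
    exact not_dvd_differentIdeal_iff.mpr (hun q P hq hqS hqP) hPD
  -- the power of `q` in `m`
  set v := n.factorization q
  have hv : q ^ v ∣ n := Nat.ordProj_dvd n q
  have hvm : q ^ (v + 1) ∣ m := by
    rw [pow_succ]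
    exact mul_dvd_mul hv (Finset.dvd_prod_of_mem _ hqS)
  have hqv : Ideal.span {((q ^ (v + 1) : ℕ) : 𝓞 K)} ≠ ⊥ := by
    rw [Ne, Ideal.span_singleton_eq_bot, Nat.cast_eq_zero]
    exact pow_ne_zero _ hq.ne_zero
  have hnP : ¬ P ^ k ∣ Ideal.span {((q ^ (v + 1) : ℕ) : 𝓞 K)} := fun h => by
    have := (hcount hPp hspan k).mpr (h.trans (by
      rw [Ideal.dvd_iff_le, Ideal.span_singleton_le_span_singleton]
      exact Nat.cast_dvd_cast hvm))
    omega
  have hinv : ∀ (τ : K ≃ₐ[ℚ] K) (a : ℕ),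
      τ • Ideal.span {(a : 𝓞 K)} = Ideal.span {(a : 𝓞 K)} := by
    intro τ a
    rw [Ideal.pointwise_smul_def, Ideal.map_span, Set.image_singleton]
    congr 2
    exact map_natCast _ _
  -- hence `q ^ (v + 1)` divides the different
  have hdvd : Ideal.span {((q ^ (v + 1) : ℕ) : 𝓞 K)} ∣ D := by
    refine (UniqueFactorizationMonoid.dvd_iff_normalizedFactors_le_normalizedFactors hqv
      differentIdeal_ne_bot).mpr (Multiset.le_iff_count.mpr fun Q => ?_)
    rcases Nat.eq_zero_or_pos ((UniqueFactorizationMonoid.normalizedFactors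
      (Ideal.span {((q ^ (v + 1) : ℕ) : 𝓞 K)})).count Q) with h0 | h0
    · rw [h0]
      exact Nat.zero_le _
    have hQmem := Multiset.count_pos.mp h0
    have hQp : Prime Q := UniqueFactorizationMonoid.prime_of_normalized_factor Q hQmem
    have hQmax : Q.IsMaximal := (Ideal.isPrime_of_prime hQp).isMaximal hQp.ne_zero
    have hqQ : (q : 𝓞 K) ∈ Q := by
      have := UniqueFactorizationMonoid.dvd_of_mem_normalizedFactors hQmem
      rw [Ideal.dvd_iff_le, Ideal.span_singleton_le_iff_mem, Nat.cast_pow] at this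
      exact hQmax.isPrime.mem_of_pow_mem _ this
    have hQD : Q ^ k ∣ D := pow_dvd_of_pow_dvd hq hqP hqQ (smul_differentIdeal K)
      ((hcount hPp differentIdeal_ne_bot k).mp le_rfl)
    refine le_trans ?_ ((hcount hQp differentIdeal_ne_bot k).mpr hQD)
    by_contra hgt
    exact hnP (pow_dvd_of_pow_dvd hq hqQ hqP (fun τ => hinv τ _)
      ((hcount hQp hqv k).mp (le_of_not_ge hgt)))
  -- but the trace of its inverse is not integral
  rw [Ideal.dvd_iff_le, differentialIdeal_le_iff (K := ℚ) (L := K) hqv,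
    Submodule.map_le_iff_le_comap] at hdvd
  have hx : ((q : K) ^ (v + 1))⁻¹ ∈
      ((Ideal.span {((q ^ (v + 1) : ℕ) : 𝓞 K)} : FractionalIdeal (𝓞 K)⁰ K)⁻¹ :) := by
    rw [FractionalIdeal.coeIdeal_span_singleton, FractionalIdeal.spanSingleton_inv,
      FractionalIdeal.mem_spanSingleton]
    exact ⟨1, by simp⟩
  have h1 := hdvd hx
  rw [Submodule.mem_comap, LinearMap.coe_restrictScalars, Submodule.mem_one] at h1
  obtain ⟨z, hz⟩ := h1
  rw [show ((q : K) ^ (v + 1))⁻¹ = algebraMap ℚ K (((q : ℚ) ^ (v + 1))⁻¹) by simp,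
    Algebra.trace_algebraMap, nsmul_eq_mul, eq_intCast, ← div_eq_mul_inv,
    eq_div_iff (pow_ne_zero _ (by exact_mod_cast hq.ne_zero))] at hz
  have hdiv : ((q ^ (v + 1) : ℕ) : ℤ) ∣ (n : ℤ) :=
    ⟨z, by rw [mul_comm]; exact_mod_cast hz.symm⟩
  have := (hq.pow_dvd_iff_le_factorization hn0).mp (Int.natCast_dvd_natCast.mp hdiv)
  omega

/-- **The discriminant is bounded.** -/
theorem natAbs_discr_le {S : Finset ℕ} (hS : ∀ p ∈ S, p.Prime)
    (hun : ∀ (q : ℕ) (P : Ideal (𝓞 K)) [P.IsMaximal], q.Prime → q ∉ S → (q : 𝓞 K) ∈ P →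
      Algebra.IsUnramifiedAt ℤ P) :
    (discr K).natAbs ≤ (Module.finrank ℚ K * ∏ p ∈ S, p) ^ Module.finrank ℚ K := by
  have h := natCast_mem_differentIdeal hS hun
  set m := Module.finrank ℚ K * ∏ p ∈ S, p
  have hdvd := Ideal.absNorm_dvd_absNorm_of_le ((Ideal.span_singleton_le_iff_mem _).mpr h)
  rw [NumberField.absNorm_differentIdeal K (𝓞 K), Ideal.absNorm_span_singleton,
    show (m : 𝓞 K) = algebraMap ℤ (𝓞 K) (m : ℤ) by simp, Algebra.norm_algebraMap,
    Int.natAbs_pow, Int.natAbs_natCast, RingOfIntegers.rank] at hdvd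
  exact Nat.le_of_dvd (pow_pos (mul_pos Module.finrank_pos
    (Finset.prod_pos fun p hp => (hS p hp).pos)) _) hdvd

end Different

/-- A Galois extension whose Galois group over it contains the inertia groups above `q` is
unramified above `q`. -/
theorem isUnramifiedAt_of_inertia_le (K : IntermediateField ℚ Qb) [FiniteDimensional ℚ K]
    [IsGalois ℚ K] {q : ℕ} (hq : q.Prime)
    (h : ∀ A : ValuationSubring Qb, A.LiesOverPrime q →
      A.inertiaSubgroupIn ℚ ≤ K.fixingSubgroup)
    (P : Ideal (𝓞 K)) [P.IsMaximal] (hqP : (q : 𝓞 K) ∈ P) : Algebra.IsUnramifiedAt ℤ P := by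
  have : NumberField K := { }
  have hinert : ∀ τ : K ≃ₐ[ℚ] K, (∀ x : 𝓞 K, τ • x - x ∈ P) → τ = 1 := by
    intro τ hτ
    obtain ⟨A, hA, σ, hσ, hστ⟩ := FA.Ext.exists_inertia_lift K P hq hqP τ hτ
    refine AlgEquiv.ext fun y => Subtype.ext ?_
    rw [← hστ y]
    exact h A hA hσ y
  have := IsGaloisGroup.of_isFractionRing (K ≃ₐ[ℚ] K) ℤ (𝓞 K) ℚ K
  let pI : Ideal ℤ := Ideal.span {(q : ℤ)}
  have hpI : pI.IsMaximal := PrincipalIdealRing.isMaximal_of_irreducible
    (Nat.prime_iff_prime_int.mp hq).irreducible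
  have hover : P.LiesOver pI := by
    refine ⟨hpI.eq_of_le (Ideal.IsPrime.ne_top') ?_⟩
    rw [Ideal.span_le, Set.singleton_subset_iff, SetLike.mem_coe, Ideal.mem_comap]
    simpa using hqP
  have : Finite pI.ResidueField := by
    have : Finite (ℤ ⧸ pI) := by
      have : NeZero q := ⟨hq.ne_zero⟩
      exact Finite.of_equiv (ZMod q) (Int.quotientSpanNatEquivZMod q).symm.toEquiv
    exact Finite.of_surjective _ pI.bijective_algebraMap_quotient_residueField.2
  have hcard : Nat.card (P.inertia (K ≃ₐ[ℚ] K)) = 1 := by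
    rw [(Subgroup.eq_bot_iff_forall _).mpr fun σ (hσ : σ ∈ P.inertia (K ≃ₐ[ℚ] K)) => hinert σ hσ,
      Subgroup.card_bot]
  rwa [Ideal.card_inertia_eq_ramificationIdxIn pI P,
    Ideal.ramificationIdxIn_eq_ramificationIdx pI P (K ≃ₐ[ℚ] K),
    Ideal.ramificationIdx_eq_one_iff] at hcard

/-- `N` contains the inertia groups above the primes outside `S`. -/
def InertiaOutside (S : Finset ℕ) (N : Subgroup GQ) : Prop :=
  ∀ q : ℕ, q.Prime → q ∉ S → ∀ A : ValuationSubring Qb, A.LiesOverPrime q →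
    A.inertiaSubgroupIn ℚ ≤ N

/-- **Hermite and Minkowski**: for a finite set `S` and a bound `n` the absolute Galois group of
`ℚ` has only finitely many open normal subgroups of index at most `n` which contain the inertia
groups above the primes outside `S`. -/
theorem finite_inertiaOutside (S : Finset ℕ) (n : ℕ) :
    {N : Subgroup GQ | N.Normal ∧ IsOpen (N : Set GQ) ∧ N.index ≤ n ∧
      InertiaOutside S N}.Finite := by
  classical
  set B : ℕ := (n * ∏ p ∈ S.filter Nat.Prime, p) ^ n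
  refine ((NumberField.finite_of_discr_bdd Qb B).image
    fun K => K.val.fixingSubgroup).subset ?_
  rintro N ⟨hnorm, hopen, hidx, hin⟩
  set K := IntermediateField.fixedField N
  have hK : K.fixingSubgroup = N :=
    InfiniteGalois.fixingSubgroup_fixedField ⟨N, Subgroup.isClosed_of_isOpen N hopen⟩
  have hfd : FiniteDimensional ℚ K :=
    (InfiniteGalois.isOpen_iff_finite K).mp (by rw [hK]; exact hopen)
  have hgal : IsGalois ℚ K :=
    (InfiniteGalois.normal_iff_isGalois K).mp (by rw [hK]; exact hnorm)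
  have : NumberField K := { }
  refine ⟨⟨K, hfd⟩, ?_, hK⟩
  have hdeg : Module.finrank ℚ K ≤ n := by
    rwa [IntermediateField.finrank_eq_fixingSubgroup_index, hK]
  have hpos : 0 < ∏ p ∈ S.filter Nat.Prime, p :=
    Finset.prod_pos fun p hp => (Finset.mem_filter.mp hp).2.pos
  have h := natAbs_discr_le (K := K) (S := S.filter Nat.Prime)
    (fun p hp => (Finset.mem_filter.mp hp).2) fun q P _ hq hqS hqP => by
      refine isUnramifiedAt_of_inertia_le K hq (fun A hA => ?_) P hqP
      rw [hK]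
      exact hin q hq (fun h => hqS (Finset.mem_filter.mpr ⟨h, hq⟩)) A hA
  show |discr K| ≤ (B : ℤ)
  rw [Int.abs_eq_natAbs]
  refine Int.ofNat_le.mpr (h.trans ?_)
  exact (Nat.pow_le_pow_left (Nat.mul_le_mul_right _ hdeg) _).trans
    (Nat.pow_le_pow_right (Nat.mul_pos (Module.finrank_pos.trans_le hdeg) hpos) hdeg)

end FA.Faltings

end
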