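import Fermat.Agent.Faltings.Hermite
import Fermat.Agent.TW.Global
import Mathlib.RingTheory.Unramified.Locus
import Mathlib.Topology.Algebra.Group.ClosedSubgroup

/-!
# The Galois group of `ℚ` unramified outside a finite set is small

By the theorem of Hermite and Minkowski there are, for a finite set `S` and a bound `n`, finitely
many open normal subgroups of index at most `n` containing the inertia groups outside `S`. An open
subgroup of index `n` which contains these inertia groups also contains a normal one of index at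
most `n!`. So there are finitely many of those too, finitely many homomorphisms from each of them
to a given finite group, and finitely many cocycles with values in a finite module.
-/

set_option autoImplicit false
set_option linter.unusedSectionVars false

noncomputable section

open scoped Pointwise NumberField

local notation "Qb" => AlgebraicClosure ℚ
local notation "GQ" => AlgebraicClosure ℚ ≃ₐ[ℚ] AlgebraicClosure ℚ

namespace FA.Faltings

variable {S : Finset ℕ}

theorem InertiaOutside.mono {H H' : Subgroup GQ} (h : InertiaOutside S H) (hle : H ≤ H') :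
    InertiaOutside S H' := fun q hq hqS A hA => (h q hq hqS A hA).trans hle

/-- A subgroup containing all inertia groups outside `S` has a normal core containing them. -/
theorem InertiaOutside.normalCore {H : Subgroup GQ} (h : InertiaOutside S H) :
    InertiaOutside S H.normalCore := fun q hq hqS A hA _ hσ τ =>
  h q hq hqS (τ • A) (FA.Density.liesOverPrime_smul hA τ) (FA.TW.conj_mem_inertia hq hA hσ τ)

theorem finiteIndex_of_open {H : Subgroup GQ} (h : IsOpen (H : Set GQ)) : H.FiniteIndex := by
  have : Finite (GQ ⧸ H) := Subgroup.quotient_finite_of_isOpen H h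
  exact Subgroup.finiteIndex_of_finite_quotient

theorem index_normalCore_le {G : Type*} [Group G] (H : Subgroup G) [H.FiniteIndex] :
    H.normalCore.index ≤ H.index.factorial := by
  classical
  have : Finite (G ⧸ H) := Subgroup.finite_quotient_of_finiteIndex
  rw [Subgroup.normalCore_eq_ker, Subgroup.index_ker]
  exact (Subgroup.card_le_card_group _).trans (by rw [Nat.card_perm]; rfl)

/-- Only finitely many subgroups contain a given subgroup of finite index. -/
theorem finite_subgroups_ge {G : Type*} [Group G] (N : Subgroup G) [N.FiniteIndex] :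
    {H : Subgroup G | N ≤ H}.Finite := by
  have : Finite (G ⧸ N) := Subgroup.finite_quotient_of_finiteIndex
  refine Set.Finite.of_finite_image (f := fun H : Subgroup G => (QuotientGroup.mk '' (H : Set G) :
    Set (G ⧸ N))) (Set.toFinite _) fun H hH H' hH' e => ?_
  have key : ∀ {K K' : Subgroup G}, N ≤ K' →
      (QuotientGroup.mk '' (K : Set G) : Set (G ⧸ N)) = QuotientGroup.mk '' (K' : Set G) →
      K ≤ K' := fun {K K'} hK' e x hx => by
    obtain ⟨y, hy, hyx⟩ := e.subset (Set.mem_image_of_mem QuotientGroup.mk hx)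
    rw [← mul_inv_cancel_left y x]
    exact K'.mul_mem hy (hK' (QuotientGroup.eq.mp hyx))
  exact le_antisymm (key hH' e) (key hH e.symm)

/-- **Finitely many open subgroups of bounded index** contain the inertia groups outside `S`. -/
theorem finite_openSubgroups (S : Finset ℕ) (n : ℕ) :
    {H : Subgroup GQ | IsOpen (H : Set GQ) ∧ H.index ≤ n ∧ InertiaOutside S H}.Finite := by
  refine ((finite_inertiaOutside S n.factorial).biUnion (t := fun N => {H | N ≤ H})
    fun N hN => ?_).subset ?_
  · have := finiteIndex_of_open hN.2.1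
    exact finite_subgroups_ge N
  · rintro H ⟨hopen, hidx, hin⟩
    have := finiteIndex_of_open hopen
    refine Set.mem_biUnion (x := H.normalCore)
      ⟨H.normalCore_normal, ?_, (index_normalCore_le H).trans (Nat.factorial_le hidx),
        hin.normalCore⟩ H.normalCore_le
    exact Subgroup.isOpen_of_isClosed_of_finiteIndex _
      (Subgroup.normalCore_isClosed H (Subgroup.isClosed_of_isOpen H hopen))

/-- Only finitely many homomorphisms to a finite group have kernels containing a given subgroup
of finite index. -/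
theorem finite_homs_ge {G F : Type*} [Group G] [Group F] [Finite F] (N : Subgroup G)
    [N.FiniteIndex] : {f : G →* F | N ≤ f.ker}.Finite := by
  have : Finite (G ⧸ N) := Subgroup.finite_quotient_of_finiteIndex
  refine Set.Finite.of_finite_image (f := fun (f : G →* F) (x : G ⧸ N) => f x.out)
    (Set.toFinite _) fun f hf f' hf' e => MonoidHom.ext fun g => ?_
  obtain ⟨n, hn⟩ := QuotientGroup.mk_out_eq_mul N g
  have h1 := congrFun e (g : G ⧸ N)
  simp only [hn, map_mul] at h1
  rwa [show f n = 1 from hf n.2, show f' n = 1 from hf' n.2, mul_one, mul_one] at h1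

/-- **Finitely many homomorphisms to a finite group** from an open subgroup are unramified outside
`S`: Mazur's condition. -/
theorem finite_homs (S : Finset ℕ) (H : Subgroup GQ) (hH : IsOpen (H : Set GQ))
    {F : Type*} [Group F] [Finite F] :
    {f : H →* F | IsOpen (f.ker.map H.subtype : Set GQ) ∧
      InertiaOutside S (f.ker.map H.subtype)}.Finite := by
  have := finiteIndex_of_open hH
  refine ((finite_openSubgroups S (H.index * Nat.card F)).biUnion
    (t := fun K => {f : H →* F | K.subgroupOf H ≤ f.ker}) fun K hK => ?_).subset ?_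
  · have := finiteIndex_of_open hK.1
    exact finite_homs_ge (K.subgroupOf H)
  · rintro f ⟨hopen, hin⟩
    refine Set.mem_biUnion (x := f.ker.map H.subtype) ⟨hopen, ?_, hin⟩ ?_
    · rw [Subgroup.index_map_subtype, mul_comm, Subgroup.index_ker]
      exact Nat.mul_le_mul_left _ (Subgroup.card_le_card_group _)
    · intro x hx
      obtain ⟨y, hy, hyx⟩ := hx
      rwa [← Subtype.ext hyx]

/-- Finitely many homomorphisms of `G_ℚ` to a finite group are unramified outside `S`. -/
theorem finite_homs_top (S : Finset ℕ) {F : Type*} [Group F] [Finite F] :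
    {f : GQ →* F | IsOpen (f.ker : Set GQ) ∧ InertiaOutside S f.ker}.Finite := by
  refine ((finite_openSubgroups S (Nat.card F)).biUnion
    (t := fun K => {f : GQ →* F | K ≤ f.ker}) fun K hK => ?_).subset ?_
  · have := finiteIndex_of_open hK.1
    exact finite_homs_ge K
  · rintro f ⟨hopen, hin⟩
    refine Set.mem_biUnion (x := f.ker) ⟨hopen, ?_, hin⟩ (le_refl f.ker : f.ker ≤ f.ker)
    rw [Subgroup.index_ker]
    exact Subgroup.card_le_card_group _

/-- The kernel of the action on a set. -/
def actionKer (M : Type*) [MulAction GQ M] : Subgroup GQ := (MulAction.toPermHom GQ M).ker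

theorem mem_actionKer {M : Type*} [MulAction GQ M] {σ : GQ} :
    σ ∈ actionKer M ↔ ∀ m : M, σ • m = m := Equiv.ext_iff

variable {M : Type*} [AddCommGroup M] [Finite M] [DistribMulAction GQ M]

/-- **Finitely many cocycles**: a finite module on which inertia outside `S` acts trivially has
only finitely many continuous cocycles vanishing on inertia outside `S`. -/
theorem finite_cocycles (S : Finset ℕ) (ho : IsOpen (actionKer M : Set GQ))
    (hi : InertiaOutside S (actionKer M)) :
    {c : GQ → M | (∀ σ τ, c (σ * τ) = c σ + σ • c τ) ∧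
      (∃ U : Subgroup GQ, IsOpen (U : Set GQ) ∧ ∀ σ ∈ U, c σ = 0) ∧
      ∀ q : ℕ, q.Prime → q ∉ S → ∀ A : ValuationSubring Qb, A.LiesOverPrime q →
        ∀ σ ∈ A.inertiaSubgroupIn ℚ, c σ = 0}.Finite := by
  classical
  set H := actionKer M
  have := finiteIndex_of_open ho
  have : Finite (GQ ⧸ H) := Subgroup.finite_quotient_of_finiteIndex
  set C := {c : GQ → M | (∀ σ τ, c (σ * τ) = c σ + σ • c τ) ∧
      (∃ U : Subgroup GQ, IsOpen (U : Set GQ) ∧ ∀ σ ∈ U, c σ = 0) ∧
      ∀ q : ℕ, q.Prime → q ∉ S → ∀ A : ValuationSubring Qb, A.LiesOverPrime q →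
        ∀ σ ∈ A.inertiaSubgroupIn ℚ, c σ = 0}
  let res : (GQ → M) → H → Multiplicative M := fun c h => Multiplicative.ofAdd (c h.1)
  refine Set.Finite.of_finite_image (f := fun c => (res c, fun x : GQ ⧸ H => c x.out)) ?_ ?_
  · refine (((finite_homs S H ho (F := Multiplicative M)).image
      fun f : H →* Multiplicative M => ⇑f).prod (Set.toFinite Set.univ)).subset ?_
    rintro _ ⟨c, ⟨hc, ⟨U, hU, hcU⟩, hcI⟩, rfl⟩
    refine ⟨⟨MonoidHom.mk' (res c) fun a b => ?_, ⟨?_, ?_⟩, rfl⟩, Set.mem_univ _⟩
    · show Multiplicative.ofAdd (c (a.1 * b.1)) = _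
      rw [hc, mem_actionKer.mp a.2]
      exact ofAdd_add _ _
    · refine Subgroup.isOpen_mono (H₁ := U ⊓ H) (fun σ hσ => ?_)
        (by rw [Subgroup.coe_inf]; exact hU.inter ho)
      exact ⟨⟨σ, hσ.2⟩, congrArg Multiplicative.ofAdd (hcU σ hσ.1), rfl⟩
    · exact fun q hq hqS A hA σ hσ =>
        ⟨⟨σ, hi q hq hqS A hA hσ⟩, congrArg Multiplicative.ofAdd (hcI q hq hqS A hA σ hσ), rfl⟩
  · rintro c ⟨hc, -, -⟩ c' ⟨hc', -, -⟩ e
    funext g
    obtain ⟨h, hh⟩ := QuotientGroup.mk_out_eq_mul H g
    have hg : g = (g : GQ ⧸ H).out * (h⁻¹ : H).1 := by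
      rw [hh, Subgroup.coe_inv, mul_inv_cancel_right]
    rw [hg, hc, hc']
    have e1 : c (g : GQ ⧸ H).out = c' (g : GQ ⧸ H).out :=
      congrFun (congrArg Prod.snd e) (g : GQ ⧸ H)
    have e2 : c (h⁻¹ : H).1 = c' (h⁻¹ : H).1 :=
      congrArg Multiplicative.toAdd (congrFun (congrArg Prod.fst e) h⁻¹)
    rw [e1, e2]

/-- **Inertia fixes an unramified field**, Galois or not: two embeddings which agree modulo the
maximal ideal of the valuation ring agree modulo all of its powers. -/
theorem inertia_le_of_unramified (K : IntermediateField ℚ Qb) [FiniteDimensional ℚ K] {q : ℕ}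
    (hq : q.Prime)
    (h : ∀ (P : Ideal (NumberField.RingOfIntegers K)) [P.IsMaximal],
      (q : 𝓞 K) ∈ P → Algebra.IsUnramifiedAt ℤ P)
    {A : ValuationSubring Qb} (hA : A.LiesOverPrime q) :
    A.inertiaSubgroupIn ℚ ≤ K.fixingSubgroup := by
  classical
  intro σ hσ
  have : NumberField K := { }
  have hint : ∀ x : NumberField.RingOfIntegers K, IsIntegral ℤ ((x : K) : Qb) := fun x =>
    x.2.map (K.val.restrictScalars ℤ)
  have hmem : ∀ x : NumberField.RingOfIntegers K, ((x : K) : Qb) ∈ A := fun x =>
    FA.Deform.zbar_mem_valuationSubring A ⟨_, hint x⟩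
  have hI := FA.Local.inert_of_mem_inertiaSubgroupIn A hσ
  have hσmem : ∀ x : NumberField.RingOfIntegers K, σ ((x : K) : Qb) ∈ A := fun x =>
    (A.valuation_le_one_iff _).mp ((hI.map_eq _).trans_le ((A.valuation_le_one_iff _).mpr (hmem x)))
  let ι : NumberField.RingOfIntegers K →+* A :=
    ((K.val : K →+* Qb).comp (algebraMap (𝓞 K) K)).codRestrict _ hmem
  let ι' : NumberField.RingOfIntegers K →+* A :=
    (((σ : Qb →+* Qb).comp (K.val : K →+* Qb)).comp
      (algebraMap (𝓞 K) K)).codRestrict _ hσmem
  have hsmall : ∀ x, ι' x - ι x ∈ IsLocalRing.maximalIdeal A := fun x =>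
    (A.valuation_lt_one_iff _).mpr (hI.sub_lt _ ((A.valuation_le_one_iff _).mpr (hmem x)))
  set P := (IsLocalRing.maximalIdeal A).comap ι
  have hqP : (q : 𝓞 K) ∈ P := by
    rw [Ideal.mem_comap, map_natCast]
    exact (A.valuation_lt_one_iff _).mpr ((A.mem_nonunits_iff).mp hA)
  have hPmax : P.IsMaximal := Ideal.IsPrime.isMaximal inferInstance fun hbot => by
    rw [hbot, Ideal.mem_bot, Nat.cast_eq_zero] at hqP
    exact hq.ne_zero hqP
  have : Algebra.FormallyUnramified ℤ (Localization.AtPrime P) := h P hqP
  -- an element of largest valuation among the differences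
  set b := NumberField.RingOfIntegers.basis K
  have : Nonempty (Module.Free.ChooseBasisIndex ℤ (NumberField.RingOfIntegers K)) :=
    b.index_nonempty
  obtain ⟨i, -, hi⟩ := Finset.exists_max_image Finset.univ
    (fun i => A.valuation ((ι' (b i) - ι (b i) : A) : Qb)) Finset.univ_nonempty
  set d := ι' (b i) - ι (b i)
  have hdvd : ∀ x, ι' x - ι x ∈ Ideal.span {d} := fun x => by
    have hgen : ∀ j, ι' (b j) - ι (b j) ∈ Ideal.span {d} := fun j => by
      obtain ⟨a, ha⟩ := (A.valuation_le_iff _ _).mp (hi j (Finset.mem_univ _))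
      exact Ideal.mem_span_singleton'.mpr ⟨a, Subtype.ext ha⟩
    rw [← b.sum_repr x, map_sum, map_sum, ← Finset.sum_sub_distrib]
    refine Ideal.sum_mem _ fun j _ => ?_
    rw [zsmul_eq_mul, map_mul, map_mul, map_intCast, map_intCast, ← mul_sub]
    exact Ideal.mul_mem_left _ _ (hgen j)
  -- the two embeddings modulo its square
  set J := Ideal.span {d ^ 2}
  let π : A →+* A ⧸ J := Ideal.Quotient.mk J
  have hunit : ∀ (f : NumberField.RingOfIntegers K →+* A), (∀ x, f x - ι x ∈
      IsLocalRing.maximalIdeal A) → ∀ y : P.primeCompl, IsUnit (π (f y)) := fun f hf y =>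
    (IsLocalRing.notMem_maximalIdeal.mp fun hy => y.2 (Ideal.mem_comap.mpr (by
      simpa using sub_mem hy (hf y)))).map π
  let g₁ : Localization.AtPrime P →+* A ⧸ J :=
    IsLocalization.lift (g := π.comp ι) (hunit ι fun x => by simp)
  let g₂ : Localization.AtPrime P →+* A ⧸ J :=
    IsLocalization.lift (g := π.comp ι') (hunit ι' hsmall)
  have hnil : IsNilpotent ((Ideal.span {d}).map π) := ⟨2, by
    rw [← Ideal.map_pow, Ideal.span_singleton_pow, Ideal.zero_eq_bot, Ideal.map_quotient_self]⟩
  let toAlg (g : Localization.AtPrime P →+* A ⧸ J) : Localization.AtPrime P →ₐ[ℤ] A ⧸ J :=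
    AlgHom.mk g fun n => by simp
  have heq : toAlg g₁ = toAlg g₂ := by
    refine Algebra.FormallyUnramified.ext _ hnil fun z => ?_
    refine RingHom.congr_fun (IsLocalization.ringHom_ext P.primeCompl
      (j := (Ideal.Quotient.mk _).comp g₁) (k := (Ideal.Quotient.mk _).comp g₂) ?_) z
    ext x
    simp only [RingHom.coe_comp, Function.comp_apply, g₁, g₂, IsLocalization.lift_eq]
    rw [Ideal.Quotient.eq, ← map_sub, ← neg_sub]
    exact Ideal.mem_map_of_mem π (neg_mem (hdvd x))
  have hd : d = 0 := by
    have h2 : π (ι (b i)) = π (ι' (b i)) := by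
      have := AlgHom.congr_fun heq (algebraMap _ _ (b i))
      simpa [toAlg, g₁, g₂, IsLocalization.lift_eq] using this
    rw [eq_comm, Ideal.Quotient.eq, Ideal.mem_span_singleton'] at h2
    obtain ⟨c, hc⟩ := h2
    have hu : IsUnit (1 - c * d) := IsLocalRing.isUnit_one_sub_self_of_mem_nonunits _
      ((IsLocalRing.mem_maximalIdeal _).mp (Ideal.mul_mem_left _ c (hsmall _)))
    refine hu.mul_left_eq_zero.mp ?_
    linear_combination -hc
  have key : ∀ x : NumberField.RingOfIntegers K, σ ((x : K) : Qb) = ((x : K) : Qb) := fun x => by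
    have := hdvd x
    rw [hd, Ideal.span_singleton_eq_bot.mpr rfl, Ideal.mem_bot, sub_eq_zero] at this
    exact congrArg Subtype.val this
  refine (IntermediateField.mem_fixingSubgroup_iff K σ).mpr fun y hy => ?_
  obtain ⟨x, s, -, hxs⟩ :=
    IsFractionRing.div_surjective (𝓞 K) (⟨y, hy⟩ : K)
  rw [show y = ((⟨y, hy⟩ : K) : Qb) from rfl, ← hxs]
  push_cast
  rw [map_div₀, key, key]

/-- **Finitely many fields of bounded degree**, Galois or not, are unramified outside `S`. -/
theorem finite_fields (S : Finset ℕ) (n : ℕ) :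
    {K : IntermediateField ℚ Qb | FiniteDimensional ℚ K ∧ Module.finrank ℚ K ≤ n ∧
      ∀ (q : ℕ) (P : Ideal (NumberField.RingOfIntegers K)) [P.IsMaximal], q.Prime → q ∉ S →
        (q : 𝓞 K) ∈ P → Algebra.IsUnramifiedAt ℤ P}.Finite := by
  refine Set.Finite.of_finite_image (f := IntermediateField.fixingSubgroup)
    ((finite_openSubgroups S n).subset ?_) fun K _ L _ e => ?_
  · rintro _ ⟨K, ⟨hfd, hdeg, hun⟩, rfl⟩
    exact ⟨IntermediateField.fixingSubgroup_isOpen K,
      by rwa [← IntermediateField.finrank_eq_fixingSubgroup_index],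
      fun q hq hqS A hA => inertia_le_of_unramified K hq (fun P _ => hun q P hq hqS) hA⟩
  · rw [← InfiniteGalois.fixedField_fixingSubgroup K, e, InfiniteGalois.fixedField_fixingSubgroup]

end FA.Faltings

end
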