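import Fermat.Agent.Faltings.Lemma
import Fermat.Agent.Root.SummaryFiniteness
import Fermat.Agent.Root.SummaryDeuring
import Fermat.Agent.Root.SummaryMultiplicityOne
import Fermat.Agent.Root.SummaryOggShafarevich

/-!
# Finitely many primes determine the traces of Frobenius

For two elliptic curves over `ℚ` with good reduction outside `S` Faltings' lemma applies to the
Tate modules at two primes. So the coefficients `a_q` at the primes outside `S` are determined by
finitely many of them, each bounded by Hasse's bound. The local factor at a prime is determined by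
two bounded numbers, hence finitely many L-functions.
-/

set_option autoImplicit false
set_option linter.unusedSectionVars false
set_option linter.style.haveILetI false

noncomputable section

open WeierstrassCurve Matrix FA.Frob FA.RT FA.RT.Tate
open IsDedekindDomain NumberField
open Rat.HeightOneSpectrum (primesEquiv)

local notation "Qb" => AlgebraicClosure ℚ
local notation "GQ" => AlgebraicClosure ℚ ≃ₐ[ℚ] AlgebraicClosure ℚ

namespace FA.Faltings

/-- An integral model with good reduction at every prime outside `S`. -/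
theorem exists_model_good (E : WeierstrassCurve ℚ) [E.IsElliptic] (S : Finset ℕ)
    (h : ∀ p : ℕ, ∀ [Fact p.Prime], p ∉ S → ∃ C : VariableChange ℚ_[p],
      HasGoodReduction ℤ_[p] (C • E.map (algebraMap ℚ ℚ_[p]))) :
    ∃ W : WeierstrassCurve ℤ, W.IsIntegralModelOf E ∧
      ∀ q : ℕ, q.Prime → q ∉ S → ¬ (q : ℤ) ∣ W.Δ := by
  obtain ⟨W, hW, hs⟩ := FA.OggShafarevich.exists_model_semistableOn E (· ∉ S) fun p hp hpS =>
    FA.Root.isSemistableAt_of_reduction E (Or.inl (h p hpS).choose_spec)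
  refine ⟨W, hW, fun q hq hqS hd => ?_⟩
  haveI := Fact.mk hq
  obtain ⟨C, hC⟩ := h q hqS
  exact FA.Root.not_hasGoodReduction_of_bad hW hd (fun hc => hs q hq hqS ⟨hd, hc⟩) C hC

/-- **The traces at one prime `l`**: finitely many primes determine `a_q` for `q ∉ S ∪ {l}`. -/
theorem exists_finset_apOfModel_eq (S : Finset ℕ) (l : ℕ) [hl : Fact l.Prime] :
    ∃ T : Finset ℕ, (∀ q ∈ T, q.Prime ∧ q ∉ S) ∧
      ∀ W W' : WeierstrassCurve ℤ, W.Δ ≠ 0 → W'.Δ ≠ 0 →
        (∀ q : ℕ, q.Prime → q ∉ S → ¬ (q : ℤ) ∣ W.Δ) →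
        (∀ q : ℕ, q.Prime → q ∉ S → ¬ (q : ℤ) ∣ W'.Δ) →
        (∀ q ∈ T, W.apOfModel q = W'.apOfModel q) →
        ∀ q : ℕ, q.Prime → q ∉ S → q ≠ l → W.apOfModel q = W'.apOfModel q := by
  classical
  obtain ⟨T, hT, key⟩ := exists_finset_trace_eq (ι := Fin 2) (insert l S) hl.out
  refine ⟨T, fun q hq => ⟨(hT q hq).1, fun h => (hT q hq).2 (Finset.mem_insert_of_mem h)⟩,
    fun W W' hΔ hΔ' hg hg' heq q hq hqS hql => ?_⟩
  haveI := ratCurve_isElliptic_of_Δ hΔ
  haveI := ratCurve_isElliptic_of_Δ hΔ'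
  obtain ⟨B⟩ := exists_tateBasis (p := l) (W := W)
  obtain ⟨B'⟩ := exists_tateBasis (p := l) (W := W')
  obtain ⟨A, hA⟩ := FA.Deform.exists_liesOverPrime hq
  obtain ⟨σ, hσ⟩ := FA.Deform.exists_isFrobeniusAt hq hA
  suffices (B.rep σ).trace = (B'.rep σ).trace by
    rw [(B.rep_frobenius hq hA hql (hg q hq hqS) hσ).1,
      (B'.rep_frobenius hq hA hql (hg' q hq hqS) hσ).1, Int.cast_inj] at this
    exact this
  refine PadicInt.ext_of_toZModPow.mp fun n => ?_
  let red : Matrix (Fin 2) (Fin 2) ℤ_[l] →* Matrix (Fin 2) (Fin 2) (ZMod (l ^ n)) :=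
    (PadicInt.toZModPow n).mapMatrix.toMonoidHom
  have hker : ∀ {V : WeierstrassCurve ℤ} [(ratCurve V).IsElliptic] (C : TateBasis l V),
      IsOpen ((red.comp C.rep).ker : Set GQ) := fun C => by
    obtain ⟨L, hL, hLh⟩ := C.exists_field n
    exact Subgroup.isOpen_mono (H₁ := L.fixingSubgroup) (fun τ hτ => MonoidHom.mem_ker.mpr
      (hLh τ ((IntermediateField.mem_fixingSubgroup_iff L τ).mp hτ)))
      (IntermediateField.fixingSubgroup_isOpen L)
  have hunr : ∀ {V : WeierstrassCurve ℤ} [(ratCurve V).IsElliptic] (C : TateBasis l V),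
      (∀ q : ℕ, q.Prime → q ∉ S → ¬ (q : ℤ) ∣ V.Δ) →
      InertiaOutside (insert l S) (red.comp C.rep).ker := fun C hV r hr hrS A' hA' τ hτ => by
    rw [Finset.mem_insert, not_or] at hrS
    rw [MonoidHom.mem_ker, MonoidHom.comp_apply,
      C.rep_inertia_good hr hA' hrS.1 (hV r hr hrS.2) hτ, map_one]
  have h := key n (red.comp B.rep) (red.comp B'.rep) (hker B) (hker B') (hunr B hg) (hunr B' hg')
    (fun r hr A' hA' τ hτ => ?_) σ
  · simpa [red, AddMonoidHom.map_trace] using h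
  obtain ⟨hrp, hrS⟩ := hT r hr
  rw [Finset.mem_insert, not_or] at hrS
  have e : (B.rep τ).trace = (B'.rep τ).trace := by
    rw [(B.rep_frobenius hrp hA' hrS.1 (hg r hrp hrS.2) hτ).1,
      (B'.rep_frobenius hrp hA' hrS.1 (hg' r hrp hrS.2) hτ).1, heq r hr]
  simpa [red, AddMonoidHom.map_trace] using congrArg (PadicInt.toZModPow n) e

/-- **The traces outside `S`**: finitely many primes determine `a_q` for every `q ∉ S`. -/
theorem exists_finset_LFunction_eq (S : Finset ℕ) :
    ∃ T : Finset ℕ, (∀ q ∈ T, q.Prime ∧ q ∉ S) ∧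
      ∀ (E E' : WeierstrassCurve ℚ) [E.IsElliptic] [E'.IsElliptic],
        (∀ p : ℕ, ∀ [Fact p.Prime], p ∉ S → ∃ C : VariableChange ℚ_[p],
          HasGoodReduction ℤ_[p] (C • E.map (algebraMap ℚ ℚ_[p]))) →
        (∀ p : ℕ, ∀ [Fact p.Prime], p ∉ S → ∃ C : VariableChange ℚ_[p],
          HasGoodReduction ℤ_[p] (C • E'.map (algebraMap ℚ ℚ_[p]))) →
        (∀ q ∈ T, E.LFunction q = E'.LFunction q) →
        ∀ q : ℕ, q.Prime → q ∉ S → E.LFunction q = E'.LFunction q := by
  haveI := Fact.mk Nat.prime_two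
  haveI := Fact.mk Nat.prime_three
  obtain ⟨T₂, hT₂, h₂⟩ := exists_finset_apOfModel_eq S 2
  obtain ⟨T₃, hT₃, h₃⟩ := exists_finset_apOfModel_eq S 3
  refine ⟨T₂ ∪ T₃, fun q hq => (Finset.mem_union.mp hq).elim (hT₂ q) (hT₃ q),
    fun E E' _ _ h h' heq q hq hqS => ?_⟩
  obtain ⟨W, hW, hg⟩ := exists_model_good E S h
  obtain ⟨W', hW', hg'⟩ := exists_model_good E' S h'
  have e : ∀ r : ℕ, r ∈ T₂ ∪ T₃ → W.apOfModel r = W'.apOfModel r := fun r hr => by
    obtain ⟨hrp, hrS⟩ := (Finset.mem_union.mp hr).elim (hT₂ r) (hT₃ r)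
    rw [← FA.Root.LFunction_apply_prime E W hW hrp (hg r hrp hrS),
      ← FA.Root.LFunction_apply_prime E' W' hW' hrp (hg' r hrp hrS)]
    exact heq r hr
  rw [FA.Root.LFunction_apply_prime E W hW hq (hg q hq hqS),
    FA.Root.LFunction_apply_prime E' W' hW' hq (hg' q hq hqS)]
  by_cases hq2 : q = 2
  · subst hq2
    exact h₃ W W' (FA.Frob.Δ_ne_zero_of_model hW) (FA.Frob.Δ_ne_zero_of_model hW') hg hg'
      (fun r hr => e r (Finset.mem_union_right _ hr)) 2 hq hqS (by norm_num)
  · exact h₂ W W' (FA.Frob.Δ_ne_zero_of_model hW) (FA.Frob.Δ_ne_zero_of_model hW') hg hg'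
      (fun r hr => e r (Finset.mem_union_left _ hr)) q hq hqS hq2

/-- **The recursion at every prime**, good or bad. -/
theorem exists_recursion (E : WeierstrassCurve ℚ) {p : ℕ} (hp : p.Prime) :
    ∃ b : ℤ, (b = 0 ∨ b = p) ∧ ∀ r : ℕ, E.LFunction (p ^ (r + 2)) =
      E.LFunction p * E.LFunction (p ^ (r + 1)) - b * E.LFunction (p ^ r) := by
  classical
  obtain ⟨v, rfl⟩ : ∃ v : HeightOneSpectrum (𝓞 ℚ), (primesEquiv v : ℕ) = p :=
    ⟨primesEquiv.symm (⟨p, hp⟩ : Nat.Primes),
      congrArg Subtype.val (primesEquiv.apply_symm_apply (⟨p, hp⟩ : Nat.Primes))⟩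
  set V := E.baseChange (v.adicCompletion ℚ)
  obtain ⟨a, b, hb, hP⟩ : ∃ a b : ℤ, (b = 0 ∨ b = (primesEquiv v : ℕ)) ∧
      V.localPolynomial (v.adicCompletionIntegers ℚ) =
        1 - Polynomial.C a * Polynomial.X + Polynomial.C b * Polynomial.X ^ 2 := by
    unfold localPolynomial
    split_ifs
    · exact ⟨_, _, Or.inr (by rw [FA.Root.natCard_residueField]), rfl⟩
    · exact ⟨1, 0, Or.inl rfl, by simp⟩
    · exact ⟨-1, 0, Or.inl rfl, by simp⟩
    · exact ⟨0, 0, Or.inl rfl, by simp⟩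
  set φ := PowerSeries.invOfUnit ((1 - Polynomial.C a * Polynomial.X +
    Polynomial.C b * Polynomial.X ^ 2 : Polynomial ℤ) : PowerSeries ℤ) 1 with hφ
  have hL : ∀ k : ℕ, E.LFunction ((primesEquiv v : ℕ) ^ k) = PowerSeries.coeff k φ := fun k => by
    rw [FA.Root.LFunction_apply_prime_pow, localPowerSeries, hP]
  have h1 : PowerSeries.coeff 1 φ = a := by
    have h := congrArg (PowerSeries.coeff 1) (PowerSeries.mul_invOfUnit
      ((1 - Polynomial.C a * Polynomial.X + Polynomial.C b * Polynomial.X ^ 2 : Polynomial ℤ) :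
        PowerSeries ℤ) 1 (by simp))
    rw [← hφ] at h
    have e : ((1 - Polynomial.C a * Polynomial.X + Polynomial.C b * Polynomial.X ^ 2 :
        Polynomial ℤ) : PowerSeries ℤ) * φ = φ - PowerSeries.C a * (PowerSeries.X * φ) +
        PowerSeries.C b * (PowerSeries.X * (PowerSeries.X * φ)) := by
      simp only [Polynomial.coe_add, Polynomial.coe_sub, Polynomial.coe_one, Polynomial.coe_mul,
        Polynomial.coe_C, Polynomial.coe_X, Polynomial.coe_pow]
      ring
    have h0 : PowerSeries.coeff 0 φ = 1 := by simp [hφ]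
    rw [e, map_add, map_sub, PowerSeries.coeff_C_mul, PowerSeries.coeff_C_mul,
      PowerSeries.coeff_succ_X_mul, h0, PowerSeries.coeff_succ_X_mul,
      PowerSeries.coeff_zero_X_mul, PowerSeries.coeff_one, if_neg one_ne_zero] at h
    linarith
  refine ⟨b, hb, fun r => ?_⟩
  have e1 := hL 1
  rw [pow_one, h1] at e1
  rw [e1, hL, hL, hL]
  exact FA.Root.coeff_invOfUnit_quadratic a b r

/-- An L-function is determined by its values at the primes and the constants of the recursions. -/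
theorem LFunction_eq_of_recursion (E E' : WeierstrassCurve ℚ) (b : ℕ → ℤ)
    (h : ∀ p : ℕ, p.Prime → E.LFunction p = E'.LFunction p)
    (hb : ∀ p : ℕ, p.Prime → ∀ r : ℕ, E.LFunction (p ^ (r + 2)) =
      E.LFunction p * E.LFunction (p ^ (r + 1)) - b p * E.LFunction (p ^ r))
    (hb' : ∀ p : ℕ, p.Prime → ∀ r : ℕ, E'.LFunction (p ^ (r + 2)) =
      E'.LFunction p * E'.LFunction (p ^ (r + 1)) - b p * E'.LFunction (p ^ r)) :
    E.LFunction = E'.LFunction := by
  refine (FA.Root.isMultiplicative_LFunction E).eq_iff_eq_on_prime_powers _ _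
    (FA.Root.isMultiplicative_LFunction E') |>.mpr fun p i hp => ?_
  induction i using Nat.twoStepInduction with
  | zero => rw [pow_zero, (FA.Root.isMultiplicative_LFunction E).map_one,
      (FA.Root.isMultiplicative_LFunction E').map_one]
  | one => rw [pow_one]; exact h p hp
  | more i h0 h1 => rw [hb p hp i, hb' p hp i, h p hp, h0, h1]

/-- **Finitely many L-functions** with good reduction outside `S`. -/
theorem finite_LFunction_set (S : Finset ℕ) :
    {L : ArithmeticFunction ℤ | ∃ (E : WeierstrassCurve ℚ) (_ : E.IsElliptic),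
      (∀ p : ℕ, ∀ [Fact p.Prime], p ∉ S → ∃ C : VariableChange ℚ_[p],
        HasGoodReduction ℤ_[p] (C • E.map (algebraMap ℚ ℚ_[p]))) ∧
      E.LFunction = L}.Finite := by
  classical
  obtain ⟨T, -, hT⟩ := exists_finset_LFunction_eq S
  let Good : WeierstrassCurve ℚ → Prop := fun E => ∃ _ : E.IsElliptic,
    ∀ p : ℕ, ∀ [Fact p.Prime], p ∉ S → ∃ C : VariableChange ℚ_[p],
      HasGoodReduction ℤ_[p] (C • E.map (algebraMap ℚ ℚ_[p]))
  let bc : WeierstrassCurve ℚ → ℕ → ℤ := fun E p =>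
    if hp : p.Prime then (exists_recursion E hp).choose else 0
  let key : WeierstrassCurve ℚ → ({x // x ∈ T ∪ S} → ℤ) × ({x // x ∈ S} → ℤ) :=
    fun E => (fun p => E.LFunction p.1, fun p => bc E p.1)
  have hfin : (key '' {E | Good E}).Finite := by
    refine ((Set.Finite.pi fun p : {x // x ∈ T ∪ S} => Set.finite_Icc
      (-((p.1 * p.1 : ℕ) : ℤ)) ((p.1 * p.1 : ℕ) : ℤ)).prod
      (Set.Finite.pi fun p : {x // x ∈ S} => (Set.finite_Icc (0 : ℤ) p.1))).subset ?_
    rintro _ ⟨E, -, rfl⟩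
    refine Set.mem_prod.mpr ⟨fun p _ => abs_le.mp (FA.Root.Finiteness.abs_LFunction_le_sq E p.1),
      fun p _ => ?_⟩
    show bc E p.1 ∈ Set.Icc (0 : ℤ) p.1
    simp only [bc]
    split_ifs with hp
    · rcases (exists_recursion E hp).choose_spec.1 with h | h <;> simp [h]
    · simp
  have hdet : ∀ E E', Good E → Good E' → key E = key E' → E.LFunction = E'.LFunction := by
    rintro E E' ⟨hE, hg⟩ ⟨hE', hg'⟩ hk
    have hk1 : ∀ p ∈ T ∪ S, E.LFunction p = E'.LFunction p := fun p hp =>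
      congrFun (congrArg Prod.fst hk) ⟨p, hp⟩
    have hk2 : ∀ p ∈ S, bc E p = bc E' p := fun p hp =>
      congrFun (congrArg Prod.snd hk) ⟨p, hp⟩
    refine LFunction_eq_of_recursion E E' (fun p => if p ∈ S then bc E p else p) (fun p hp => ?_)
      (fun p hp r => ?_) (fun p hp r => ?_)
    · by_cases hpS : p ∈ S
      · exact hk1 p (Finset.mem_union_right _ hpS)
      · exact hT E E' hg hg' (fun q hq => hk1 q (Finset.mem_union_left _ hq)) p hp hpS
    · by_cases hpS : p ∈ S
      · rw [if_pos hpS]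
        simp only [bc, dif_pos hp]
        exact (exists_recursion E hp).choose_spec.2 r
      · rw [if_neg hpS]
        obtain ⟨W, hW, hgd⟩ := exists_model_good E S hg
        rw [FA.Root.LFunction_apply_prime_pow_good E W hW hp (hgd p hp hpS) r,
          FA.Root.LFunction_apply_prime E W hW hp (hgd p hp hpS)]
    · by_cases hpS : p ∈ S
      · rw [if_pos hpS, hk2 p hpS]
        simp only [bc, dif_pos hp]
        exact (exists_recursion E' hp).choose_spec.2 r
      · rw [if_neg hpS]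
        obtain ⟨W, hW, hgd⟩ := exists_model_good E' S hg'
        rw [FA.Root.LFunction_apply_prime_pow_good E' W hW hp (hgd p hp hpS) r,
          FA.Root.LFunction_apply_prime E' W hW hp (hgd p hp hpS)]
  rcases Set.eq_empty_or_nonempty {E | Good E} with he | ⟨E₀, hE₀⟩
  · refine Set.finite_empty.subset ?_
    rintro _ ⟨E, hE, hg, rfl⟩
    exact absurd (show E ∈ {E | Good E} from ⟨hE, hg⟩) (by rw [he]; exact Set.notMem_empty E)
  let pick : ({x // x ∈ T ∪ S} → ℤ) × ({x // x ∈ S} → ℤ) → WeierstrassCurve ℚ :=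
    fun k => if h : ∃ E, Good E ∧ key E = k then h.choose else E₀
  refine (hfin.image fun k => (pick k).LFunction).subset ?_
  rintro _ ⟨E, hE, hg, rfl⟩
  have hex : ∃ E', Good E' ∧ key E' = key E := ⟨E, ⟨hE, hg⟩, rfl⟩
  refine ⟨key E, ⟨E, ⟨hE, hg⟩, rfl⟩, ?_⟩
  show (pick (key E)).LFunction = E.LFunction
  simp only [pick, dif_pos hex]
  exact hdet _ E hex.choose_spec.1 ⟨hE, hg⟩ hex.choose_spec.2

end FA.Faltings

end
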