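import Fermat.Agent.Faltings.Hermite
import Fermat.Agent.Root.SummaryChebotarevTraces
import Mathlib.GroupTheory.SpecificGroups.Cyclic

/-!
# Faltings' finiteness lemma for Galois representations

Let `S` be a finite set containing the prime `l`. For two representations `ρ`, `ρ'` of `G_ℚ` in
`d × d` matrices over `ℤ/l^k`, unramified outside `S`, the ring `Λ` spanned by the `(ρ σ, ρ' σ)`
has at most `l ^ (2 d²)` classes modulo `l`. So the `σ` with `(ρ σ, ρ' σ) ≡ 1` modulo `l Λ` form an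
open normal subgroup of bounded index which contains inertia outside `S`. There are finitely many
of these, and Chebotarev gives finitely many primes whose Frobenius elements fill all the cosets of
all of them. If the traces agree there, then the difference of the traces maps `Λ` into its own
multiples by `l`, so it is zero.
-/

set_option autoImplicit false
set_option linter.unusedSectionVars false
set_option linter.style.haveILetI false

noncomputable section

open Matrix FA.Frob FA.RT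
open scoped Pointwise

local notation "Qb" => AlgebraicClosure ℚ
local notation "GQ" => AlgebraicClosure ℚ ≃ₐ[ℚ] AlgebraicClosure ℚ

namespace FA.Faltings

/-- Every class modulo an open normal subgroup contains a Frobenius element of a prime outside a
given finite set. -/
theorem exists_frobenius_coset (N : Subgroup GQ) [N.Normal] (hN : IsOpen (N : Set GQ))
    (S : Finset ℕ) (g : GQ ⧸ N) :
    ∃ q : ℕ, q.Prime ∧ q ∉ S ∧ ∃ A : ValuationSubring Qb, A.LiesOverPrime q ∧
      ∃ σ : GQ, A.IsFrobeniusAt σ q ∧ (σ : GQ ⧸ N) = g := by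
  classical
  have : Finite (GQ ⧸ N) := by
    have := Subgroup.quotient_finite_of_isOpen N hN
    exact this
  have := Fintype.ofFinite (GQ ⧸ N)
  obtain ⟨q, hq, hqS, h⟩ := FA.Chebotarev.exists_frobenius_mem (QuotientGroup.mk' N)
    (QuotientGroup.mk'_surjective N) (by rwa [QuotientGroup.ker_mk']) (X := {x | IsConj g x})
    (fun y hy x => hy.trans (isConj_iff.mpr ⟨x, rfl⟩)) ⟨g, IsConj.refl g⟩ S
  obtain ⟨A, hA⟩ := FA.Deform.exists_liesOverPrime hq
  obtain ⟨σ, hσ⟩ := FA.Deform.exists_isFrobeniusAt hq hA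
  obtain ⟨c, hc⟩ := isConj_iff.mp (h A hA σ hσ)
  obtain ⟨τ, hτ⟩ := QuotientGroup.mk_surjective c⁻¹
  refine ⟨q, hq, hqS, τ • A, FA.Density.liesOverPrime_smul hA τ, τ * σ * τ⁻¹,
    FA.Density.isFrobeniusAt_smul hσ τ, ?_⟩
  rw [QuotientGroup.mk_mul, QuotientGroup.mk_mul, QuotientGroup.mk_inv, hτ, inv_inv]
  rw [show (σ : GQ ⧸ N) = c * g * c⁻¹ from hc.symm]
  group

variable {ι : Type*} [Fintype ι] [DecidableEq ι]

/-- **Faltings' finiteness lemma**: for a finite set `S` containing the prime `l` and a dimension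
there is a finite set `T` of primes outside `S` such that two representations of `G_ℚ` modulo any
power of `l` which are unramified outside `S` and have equal traces at the Frobenius elements of
the primes of `T` have equal traces. -/
theorem exists_finset_trace_eq (S : Finset ℕ) {l : ℕ} (hl : l.Prime) :
    ∃ T : Finset ℕ, (∀ q ∈ T, q.Prime ∧ q ∉ S) ∧
      ∀ (k : ℕ) (ρ ρ' : GQ →* Matrix ι ι (ZMod (l ^ k))),
        IsOpen (ρ.ker : Set GQ) → IsOpen (ρ'.ker : Set GQ) →
        InertiaOutside S ρ.ker → InertiaOutside S ρ'.ker →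
        (∀ q ∈ T, ∀ A : ValuationSubring Qb, A.LiesOverPrime q → ∀ σ : GQ,
          A.IsFrobeniusAt σ q → (ρ σ).trace = (ρ' σ).trace) →
        ∀ σ, (ρ σ).trace = (ρ' σ).trace := by
  classical
  set n := l ^ (Fintype.card ι * Fintype.card ι) * l ^ (Fintype.card ι * Fintype.card ι)
  set 𝒩 := {N : Subgroup GQ | N.Normal ∧ IsOpen (N : Set GQ) ∧ N.index ≤ n ∧ InertiaOutside S N}
  have hfin : 𝒩.Finite := finite_inertiaOutside S n
  have hex : ∀ N : Subgroup GQ, N ∈ 𝒩 → ∃ T : Finset ℕ, (∀ q ∈ T, q.Prime ∧ q ∉ S) ∧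
      ∀ σ : GQ, ∃ q ∈ T, ∃ A : ValuationSubring Qb, A.LiesOverPrime q ∧
        ∃ τ : GQ, A.IsFrobeniusAt τ q ∧ τ⁻¹ * σ ∈ N := by
    rintro N ⟨hnorm, hopen, -, -⟩
    have : Finite (GQ ⧸ N) := Subgroup.quotient_finite_of_isOpen N hopen
    have := Fintype.ofFinite (GQ ⧸ N)
    choose f hf using exists_frobenius_coset N hopen S
    refine ⟨Finset.univ.image f, fun q hq => ?_, fun σ => ?_⟩
    · obtain ⟨g, -, rfl⟩ := Finset.mem_image.mp hq
      exact ⟨(hf g).1, (hf g).2.1⟩
    · obtain ⟨A, hA, τ, hτ, hg⟩ := (hf σ).2.2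
      exact ⟨f σ, Finset.mem_image_of_mem _ (Finset.mem_univ _), A, hA, τ, hτ,
        QuotientGroup.eq.mp hg⟩
  choose T hT using hex
  refine ⟨hfin.toFinset.attach.biUnion fun N => T N.1 (hfin.mem_toFinset.mp N.2), fun q hq => ?_,
    fun k ρ ρ' ho ho' hi hi' htr => ?_⟩
  · obtain ⟨N, -, hN⟩ := Finset.mem_biUnion.mp hq
    exact (hT _ _).1 q hN
  have : NeZero (l ^ k) := ⟨pow_ne_zero _ hl.ne_zero⟩
  let f : GQ →* Matrix ι ι (ZMod (l ^ k)) × Matrix ι ι (ZMod (l ^ k)) := ρ.prod ρ'
  let Λ : AddSubgroup (Matrix ι ι (ZMod (l ^ k)) × Matrix ι ι (ZMod (l ^ k))) :=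
    AddSubgroup.closure (Set.range f)
  let lΛ : AddSubgroup (Matrix ι ι (ZMod (l ^ k)) × Matrix ι ι (ZMod (l ^ k))) :=
    Λ.map (nsmulAddMonoidHom l)
  have hmem : ∀ σ, f σ ∈ Λ := fun σ => AddSubgroup.subset_closure ⟨σ, rfl⟩
  have hΛmul : ∀ σ τ, ∀ x ∈ Λ, f σ * x * f τ ∈ Λ := by
    intro σ τ x hx
    induction hx using AddSubgroup.closure_induction with
    | mem y hy =>
      obtain ⟨υ, rfl⟩ := hy
      rw [← map_mul, ← map_mul]
      exact hmem _
    | zero => simp
    | add a b _ _ ha hb => rw [mul_add, add_mul]; exact Λ.add_mem ha hb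
    | neg a _ ha => rw [mul_neg, neg_mul]; exact Λ.neg_mem ha
  have hlmul : ∀ σ τ, ∀ x ∈ lΛ, f σ * x * f τ ∈ lΛ := by
    rintro σ τ _ ⟨x, hx, rfl⟩
    exact ⟨f σ * x * f τ, hΛmul σ τ x hx, by
      show l • (f σ * x * f τ) = f σ * (l • x) * f τ
      rw [mul_smul_comm, smul_mul_assoc]⟩
  have hl1 : ∀ σ, ∀ x ∈ lΛ, f σ * x ∈ lΛ := fun σ x hx => by
    simpa using hlmul σ 1 x hx
  -- the elements congruent to one
  let N : Subgroup GQ :=
    { carrier := {σ | f σ - 1 ∈ lΛ}
      one_mem' := by simp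
      mul_mem' := fun {σ τ} hσ hτ => by
        have : f (σ * τ) - 1 = f σ * (f τ - 1) + (f σ - 1) := by rw [map_mul]; noncomm_ring
        show f (σ * τ) - 1 ∈ lΛ
        rw [this]
        exact lΛ.add_mem (hl1 σ _ hτ) hσ
      inv_mem' := fun {σ} hσ => by
        have : f σ⁻¹ - 1 = -(f σ⁻¹ * (f σ - 1)) := by
          rw [mul_sub, ← map_mul, inv_mul_cancel, map_one]; noncomm_ring
        show f σ⁻¹ - 1 ∈ lΛ
        rw [this]
        exact lΛ.neg_mem (hl1 _ _ hσ) }
  have hNmem : ∀ {σ}, σ ∈ N ↔ f σ - 1 ∈ lΛ := Iff.rfl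
  have hnorm : N.Normal := ⟨fun σ hσ τ => hNmem.mpr (by
    have : f (τ * σ * τ⁻¹) - 1 = f τ * (f σ - 1) * f τ⁻¹ := by
      rw [map_mul, map_mul, mul_sub, sub_mul, mul_one, ← map_mul f τ τ⁻¹, mul_inv_cancel, map_one]
    rw [this]
    exact hlmul τ τ⁻¹ _ (hNmem.mp hσ))⟩
  have hker : ρ.ker ⊓ ρ'.ker ≤ N := fun σ hσ => hNmem.mpr (by
    rw [show f σ = 1 from Prod.ext hσ.1 hσ.2, sub_self]
    exact lΛ.zero_mem)
  have hopen : IsOpen (N : Set GQ) :=
    Subgroup.isOpen_mono hker (by rw [Subgroup.coe_inf]; exact ho.inter ho')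
  have hin : InertiaOutside S N := fun q hq hqS A hA =>
    le_trans (le_inf (hi q hq hqS A hA) (hi' q hq hqS A hA)) hker
  have hidx : N.index ≤ n := by
    let m : Λ →+ Λ := nsmulAddMonoidHom l
    have hinj : Function.Injective (Quotient.lift
        (fun σ : GQ => (QuotientAddGroup.mk ⟨f σ, hmem σ⟩ : Λ ⧸ m.range)) fun a b hab => by
          rw [QuotientAddGroup.eq]
          have hab' := hNmem.mp (QuotientGroup.leftRel_apply.mp hab)
          obtain ⟨x, hx, he⟩ := hl1 a _ hab'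
          refine ⟨⟨x, hx⟩, Subtype.ext ?_⟩
          simp only [m, nsmulAddMonoidHom, AddMonoidHom.coe_mk, ZeroHom.coe_mk,
            AddSubgroup.coe_nsmul, AddSubgroup.coe_add, AddSubgroup.coe_neg] at he ⊢
          rw [he, mul_sub, ← map_mul, mul_inv_cancel_left, mul_one, neg_add_eq_sub]) := by
      intro a b
      induction a using Quotient.inductionOn with
      | h a =>
        induction b using Quotient.inductionOn with
        | h b =>
          intro hab
          refine Quotient.sound (QuotientGroup.leftRel_apply.mpr (hNmem.mpr ?_))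
          obtain ⟨⟨x, hx⟩, he⟩ := QuotientAddGroup.eq.mp hab
          have he' := congrArg Subtype.val he
          simp only [m, nsmulAddMonoidHom, AddMonoidHom.coe_mk, ZeroHom.coe_mk,
            AddSubgroup.coe_nsmul, AddSubgroup.coe_add, AddSubgroup.coe_neg] at he'
          have h1 : f (a⁻¹ * b) - 1 = f a⁻¹ * (-f a + f b) := by
            rw [mul_add, mul_neg, ← map_mul, ← map_mul, inv_mul_cancel, map_one]; abel
          rw [h1, ← he']
          exact hl1 _ _ ⟨x, hx, rfl⟩
    refine (Nat.card_le_card_of_injective _ hinj).trans ?_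
    have h1 : m.ker.index = Nat.card m.range := AddSubgroup.index_ker m
    have h2 : Nat.card Λ = Nat.card m.ker * m.ker.index := (AddSubgroup.card_mul_index _).symm
    have h3 : Nat.card Λ = Nat.card m.range * m.range.index := (AddSubgroup.card_mul_index _).symm
    have h4 : m.range.index = Nat.card m.ker := by
      have hpos : 0 < Nat.card m.range := Nat.card_pos
      refine Nat.eq_of_mul_eq_mul_left hpos ?_
      rw [← h3, h2, h1, mul_comm]
    rw [show Nat.card (Λ ⧸ m.range) = m.range.index from rfl, h4]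
    let K := {x : ZMod (l ^ k) // l • x = 0}
    have hK : Nat.card K ≤ l := by
      rw [Nat.card_eq_fintype_card, Fintype.card_subtype]
      exact IsAddCyclic.card_nsmul_eq_zero_le hl.pos
    let g : m.ker → (ι → ι → K) × (ι → ι → K) := fun x =>
      have hx : l • x.1.1 = 0 := congrArg Subtype.val (x.2 : m x.1 = 0)
      (fun i j => ⟨x.1.1.1 i j, by
          exact congrArg (fun y => y.1 i j) hx⟩,
        fun i j => ⟨x.1.1.2 i j, by
          exact congrArg (fun y => y.2 i j) hx⟩)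
    refine (Nat.card_le_card_of_injective g fun x y h => ?_).trans ?_
    · refine Subtype.ext (Subtype.ext (Prod.ext (Matrix.ext fun i j => ?_)
        (Matrix.ext fun i j => ?_)))
      · exact congrArg Subtype.val (congrFun (congrFun (congrArg Prod.fst h) i) j)
      · exact congrArg Subtype.val (congrFun (congrFun (congrArg Prod.snd h) i) j)
    · rw [Nat.card_prod, Nat.card_fun, Nat.card_fun, Nat.card_eq_fintype_card (α := ι), ← pow_mul]
      exact Nat.mul_le_mul (Nat.pow_le_pow_left hK _) (Nat.pow_le_pow_left hK _)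
  have hN : N ∈ 𝒩 := ⟨hnorm, hopen, hidx, hin⟩
  -- the difference of the traces on `Λ`
  let φ : Matrix ι ι (ZMod (l ^ k)) × Matrix ι ι (ZMod (l ^ k)) →+ ZMod (l ^ k) :=
    ((Matrix.traceAddMonoidHom ι _).comp (AddMonoidHom.fst _ _)) -
      (Matrix.traceAddMonoidHom ι _).comp (AddMonoidHom.snd _ _)
  have hφ : ∀ σ, φ (f σ) = (ρ σ).trace - (ρ' σ).trace := fun σ => rfl
  have hstep : ∀ x ∈ Λ.map φ, ∃ y ∈ Λ.map φ, x = l • y := by
    rintro _ ⟨x, hx, rfl⟩
    induction hx using AddSubgroup.closure_induction with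
    | mem y hy =>
      obtain ⟨σ, rfl⟩ := hy
      obtain ⟨q, hq, A, hA, τ, hτ, hστ⟩ := (hT N hN).2 σ
      have hq' : q ∈ hfin.toFinset.attach.biUnion fun N => T N.1 (hfin.mem_toFinset.mp N.2) :=
        Finset.mem_biUnion.mpr ⟨⟨N, hfin.mem_toFinset.mpr hN⟩, Finset.mem_attach _ _, hq⟩
      obtain ⟨z, hz, he⟩ := hl1 τ _ (hNmem.mp hστ)
      refine ⟨φ z, ⟨z, hz, rfl⟩, ?_⟩
      rw [mul_sub, ← map_mul, mul_inv_cancel_left, mul_one] at he
      have h0 : φ (f τ) = 0 := by rw [hφ, htr q hq' A hA τ hτ, sub_self]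
      rw [← map_nsmul, ← sub_zero (φ (f σ)), ← h0, ← map_sub, ← he]
      rfl
    | zero => exact ⟨0, zero_mem _, by simp⟩
    | add a b _ _ ha hb =>
      obtain ⟨u, hu, e⟩ := ha
      obtain ⟨v, hv, e'⟩ := hb
      exact ⟨u + v, add_mem hu hv, by rw [map_add, e, e', smul_add]⟩
    | neg a _ ha =>
      obtain ⟨u, hu, e⟩ := ha
      exact ⟨-u, neg_mem hu, by rw [map_neg, e, smul_neg]⟩
  have hpow : ∀ j : ℕ, ∀ x ∈ Λ.map φ, ∃ y ∈ Λ.map φ, x = l ^ j • y := by
    intro j
    induction j with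
    | zero => exact fun x hx => ⟨x, hx, by simp⟩
    | succ j ih =>
      intro x hx
      obtain ⟨y, hy, rfl⟩ := ih x hx
      obtain ⟨z, hz, rfl⟩ := hstep y hy
      exact ⟨z, hz, by rw [pow_succ, mul_smul]⟩
  intro σ
  obtain ⟨y, -, hy⟩ := hpow k (φ (f σ)) ⟨f σ, hmem σ, rfl⟩
  rw [nsmul_eq_mul, ZMod.natCast_self, zero_mul, hφ, sub_eq_zero] at hy
  exact hy

end FA.Faltings

end
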